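import Fermat.Prelude.Def_FLTPrelim_ModularRep
import Fermat.Prelude.Def_FreyPackage_IsConductorLevel

/-!
# Level lowering from the impossibility of a bad minimal level

Every level of `ρ̄` has a divisor which is minimal; so lowering at `p` and the absence of bad
minimal levels prime to `p` give lowering at every odd prime.
-/

namespace Fermat.Agent.LevelLowering.MazurPrinciple

/-- A level from which no proper divisor keeps `ρ̄`. -/
def IsMinimalLevel (P : FreyPackage) (M : ℕ) : Prop :=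
  P.ModularRepOfLevel M ∧ ∀ M', M' ∣ M → M' ≠ M → ¬ P.ModularRepOfLevel M'

/-- A level at which the representation is modular has a divisor which is a minimal level. -/
theorem exists_minimalLevel (P : FreyPackage) {N : ℕ} (hN : 0 < N)
    (hmod : P.ModularRepOfLevel N) : ∃ M, M ∣ N ∧ IsMinimalLevel P M := by
  classical
  have h : ∃ M, M ∣ N ∧ P.ModularRepOfLevel M := ⟨N, dvd_rfl, hmod⟩
  refine ⟨Nat.find h, (Nat.find_spec h).1, (Nat.find_spec h).2, fun M' hd hne hM' => ?_⟩
  have hle := Nat.find_min' h ⟨hd.trans (Nat.find_spec h).1, hM'⟩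
  exact hne (le_antisymm
    (Nat.le_of_dvd (Nat.pos_of_dvd_of_pos (Nat.find_spec h).1 hN) hd) hle)

/-- Lowering at `p` and no bad minimal level prime to `p` give lowering at every odd prime. -/
theorem level_lowering_of (P : FreyPackage)
    (hAt : ∀ M, P.IsConductorLevel M → P.p ∣ M → P.ModularRepOfLevel M →
      ∃ M', M' ∣ M ∧ ¬ P.p ∣ M' ∧ P.ModularRepOfLevel M')
    (hMin : ∀ M, P.IsConductorLevel M → ¬ P.p ∣ M → IsMinimalLevel P M →
      ∀ r : ℕ, r.Prime → r ≠ 2 → r ∣ M → False)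
    {N q : ℕ} (hcond : P.IsConductorLevel N) (hq : q.Prime) (hq2 : q ≠ 2)
    (hmod : P.ModularRepOfLevel N) : ∃ M, M ∣ N ∧ ¬ q ∣ M ∧ P.ModularRepOfLevel M := by
  obtain ⟨M, hMN, hmin⟩ := exists_minimalLevel P hcond.pos hmod
  have hc := hcond.of_dvd hMN (Nat.pos_of_dvd_of_pos hMN hcond.pos)
  refine ⟨M, hMN, fun hqM => hMin M hc (fun hp => ?_) hmin q hq hq2 hqM, hmin.1⟩
  obtain ⟨M', hM', hpM', hmod'⟩ := hAt M hc hp hmin.1
  exact hmin.2 M' hM' (fun e => hpM' (e ▸ hp)) hmod'

end Fermat.Agent.LevelLowering.MazurPrinciple
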