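import Fermat.Agent.Attach.Levels
import Fermat.Agent.Frey.FreyModel
import Fermat.Agent.LevelLowering.MonodromyExact.Main
import Fermat.Agent.Tate.Frey

/-!
# Mazur's principle at `r ∥ N`: the local inputs

`LocalToric` adds the Atkin–Lehner involution `w` at `r` to the toric inputs, with `φ = -r w` on
the toric classes killed by `p`. Eigenvectors killed by `p` lie in the `θ`-part
(`mem_thetaPts_of_eigen`).
-/

noncomputable section

namespace Fermat.Agent.LevelLowering.MazurPrinciple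

open Attach ModularCurve WeierstrassCurve WeierstrassCurve.Affine.Point
open scoped WeierstrassCurve.Affine

local notation "Qbar" => AlgebraicClosure ℚ
local notation "GQ" => (AlgebraicClosure ℚ ≃ₐ[ℚ] AlgebraicClosure ℚ)

section

variable {N : ℕ} [NeZero N] {p : ℕ} [hp : Fact p.Prime] (M : TorsionModel N p)
  {S : Finset ℕ} (hNS : ∀ q, q.Prime → q ∣ N → q ∈ (↑S : Set ℕ))
  {k : Type} [Field k] (θ : CuspForm.heckeAlgebra N 2 (↑S : Set ℕ) →+* k)

/-- The toric inputs at `r`, with the Atkin–Lehner involution. -/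
structure LocalToric (r : ℕ) (φ σ : GQ) extends MonodromyExact.ToricInputs M hNS θ r φ σ where
  /-- The Atkin–Lehner involution at `r`. -/
  omega : JZero N →+ JZero N
  omega_omega : ∀ x, omega (omega x) = x
  omega_gal : ∀ (g : GQ) x, omega (g • x) = g • omega x
  omega_hecke : ∀ (ℓ : Nat.Primes) x, ¬ (ℓ : ℕ) ∣ N →
    heckeOperatorBar N ℓ (omega x) = omega (heckeOperatorBar N ℓ x)
  swap : ∀ x ∈ toric 1, φ • x + r • omega x = 0

/-- Eigenvectors killed by `p` lie in the `θ`-part. -/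
theorem mem_thetaPts_of_eigen [CharP k p] (a : ℕ → ℤ)
    (hθ : ∀ (ℓ : ℕ) (hℓ : ℓ.Prime) (hℓN : ¬ ℓ ∣ N) (hℓS : ℓ ∉ (↑S : Set ℕ)),
      θ (CuspForm.heckeAlgebra.T hℓ hℓN hℓS) = (a ℓ : k))
    {x : JZero N} (hx : p • x = 0)
    (heig : ∀ ℓ : Nat.Primes, (ℓ : ℕ) ∉ S → heckeOperatorBar N ℓ x = a ℓ • x) :
    x ∈ MonodromyExact.thetaPts M hNS θ 1 := by
  obtain ⟨w, rfl⟩ := (mem_range_coordPt M 1 x).mpr (by rwa [pow_one])
  let E := Module.End (ZMod (p ^ 1)) (Fin M.rk → ZMod (p ^ 1))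
  let C : Subring (E × k) :=
    { carrier := {fc | ∃ z : ℤ, (z : k) = fc.2 ∧ fc.1 w = z • w}
      mul_mem' := by
        rintro f g ⟨a, ha, ha'⟩ ⟨b, hb, hb'⟩
        refine ⟨a * b, by rw [Int.cast_mul, ha, hb]; rfl, ?_⟩
        show f.1 (g.1 w) = _
        rw [hb', map_zsmul, ha', smul_smul, mul_comm]
      one_mem' := ⟨1, Int.cast_one, (one_smul ℤ w).symm⟩
      add_mem' := by
        rintro f g ⟨a, ha, ha'⟩ ⟨b, hb, hb'⟩
        refine ⟨a + b, by rw [Int.cast_add, ha, hb]; rfl, ?_⟩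
        show f.1 w + g.1 w = _
        rw [ha', hb', add_smul]
      zero_mem' := ⟨0, Int.cast_zero, (zero_smul ℤ w).symm⟩
      neg_mem' := by
        rintro f ⟨a, ha, ha'⟩
        refine ⟨-a, by rw [Int.cast_neg, ha]; rfl, ?_⟩
        show -(f.1 w) = _
        rw [ha', neg_smul] }
  have hall : ∀ t, ((heckeAct M hNS 1).prod θ) t ∈ C :=
    forall_mem_of_T_mem (fun q hq hq' => hNS q hq' hq) _ C fun ℓ hℓ hℓN hℓS =>
      ⟨a ℓ, (hθ ℓ hℓ hℓN hℓS).symm, coordPt_injective M 1 (by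
        rw [map_zsmul]
        exact (heckeOperatorBar_coordPt M hNS 1 hℓ hℓN hℓS w).symm.trans
          (heig ⟨ℓ, hℓ⟩ fun h => hℓS (Finset.mem_coe.2 h)))⟩
  refine ⟨w, (mem_eigenPart M hNS θ).mpr fun t ht => ⟨1, ?_⟩, rfl⟩
  obtain ⟨z, hz, hz'⟩ := hall t
  obtain ⟨c, rfl⟩ := (CharP.intCast_eq_zero_iff k p z).mp (hz.trans ht)
  rw [pow_one (heckeAct M hNS 1 t)]
  refine hz'.trans (coordPt_injective M 1 ?_)
  rw [map_zsmul, mul_comm, mul_smul, natCast_zsmul, hx, smul_zero, _root_.map_zero]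

end

end Fermat.Agent.LevelLowering.MazurPrinciple
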