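import Fermat.Agent.EC.FrobTrace
import Fermat.Agent.LevelLowering.MazurPrinciple.Local

/-!
# Mazur's principle for an elliptic curve over the rationals

If `E[p]` is irreducible, occurs in `J₀(N)` and satisfies the toric inputs at `r`, then Frobenius
at `r` is a scalar sign on it and `r ≡ 1 (mod p)`.
-/

noncomputable section

namespace Fermat.Agent.LevelLowering.MazurPrinciple

open Attach ModularCurve WeierstrassCurve WeierstrassCurve.Affine.Point
open scoped WeierstrassCurve.Affine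

local notation "Qbar" => AlgebraicClosure ℚ
local notation "GQ" => (AlgebraicClosure ℚ ≃ₐ[ℚ] AlgebraicClosure ℚ)

/-- **Mazur's principle.** Frobenius at `r` is a scalar sign and `r ≡ 1 (mod p)`. -/
theorem scalar_of_localToric_curve {p : ℕ} [Fact p.Prime] (hp2 : p ≠ 2) (E : WeierstrassCurve ℚ)
    [E.IsElliptic] {N : ℕ} [NeZero N]
    (M : TorsionModel N p) {S : Finset ℕ}
    (hNS : ∀ q, q.Prime → q ∣ N → q ∈ (↑S : Set ℕ))
    (θ : CuspForm.heckeAlgebra N 2 (↑S : Set ℕ) →+* ZMod p) (a : ℕ → ℤ)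
    (hθ : ∀ (ℓ : ℕ) (hℓ : ℓ.Prime) (hℓN : ¬ ℓ ∣ N) (hℓS : ℓ ∉ (↑S : Set ℕ)),
      θ (CuspForm.heckeAlgebra.T hℓ hℓN hℓS) = (a ℓ : ZMod p))
    (hirr : GaloisRepIsIrreducible (K := Qbar) ℚ E p)
    {ι : Submodule.torsionBy ℤ (E⁄Qbar).Point (p : ℤ) →+ JZero N}
    (hι : Function.Injective ι) (hequiv : ∀ (g : GQ) x, ι (g • x) = g • ι x)
    (htor : ∀ x, p • ι x = 0)
    (heig : ∀ ℓ : Nat.Primes, (ℓ : ℕ) ∉ S → ∀ x, heckeOperatorBar N ℓ (ι x) = a ℓ • ι x)
    {r : ℕ} (hr : r.Prime) (hrp : r ≠ p)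
    {A : ValuationSubring Qbar} (hA : A.LiesOverPrime r) {φ σ : GQ} (hφ : A.IsFrobeniusAt φ r)
    (hunr : ∀ x : Submodule.torsionBy ℤ (E⁄Qbar).Point (p : ℤ), σ • x = x)
    (I : LocalToric M hNS θ r φ σ) :
    (r : ZMod p) = 1 ∧ ∃ c : ZMod p, (c = 1 ∨ c = -1) ∧
      ∀ v, galoisRepModuleEnd (K := Qbar) ℚ E p φ v = c • v := by
  have hpp : p.Prime := Fact.out
  let κ : Submodule.torsionBy ℤ (E⁄Qbar).Point (p : ℤ) →+ JZero N := I.omega.comp ι
  have hκequiv : ∀ (g : GQ) x, κ (g • x) = g • κ x := fun g x =>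
    (congrArg I.omega (hequiv g x)).trans (I.omega_gal g _)
  have hmemι : ∀ x, ι x ∈ I.toric 1 := fun x =>
    I.fixed_le _ (mem_thetaPts_of_eigen M hNS θ a hθ (htor x) fun ℓ hℓ => heig ℓ hℓ x)
      ((hequiv σ x).symm.trans (congrArg ι (hunr x)))
  have hmemκ : ∀ x, κ x ∈ I.toric 1 := fun x => by
    refine I.fixed_le _ (mem_thetaPts_of_eigen M hNS θ a hθ ?_ fun ℓ hℓ => ?_)
      ((hκequiv σ x).symm.trans (congrArg κ (hunr x)))
    · show p • I.omega (ι x) = 0
      rw [← map_nsmul, htor, _root_.map_zero]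
    · show heckeOperatorBar N ℓ (I.omega (ι x)) = a ℓ • I.omega (ι x)
      rw [I.omega_hecke ℓ _ fun hd => hℓ (Finset.mem_coe.1 (hNS ℓ ℓ.2 hd)), heig ℓ hℓ x,
        map_zsmul]
  have hswap : ∀ x, ι (φ • x) = -(r • κ x) := fun x => by
    rw [hequiv]
    exact eq_neg_of_add_eq_zero_left (I.swap _ (hmemι x))
  have hswap' : ∀ x, κ (φ • x) = -(r • ι x) := fun x => by
    rw [hκequiv]
    refine eq_neg_of_add_eq_zero_left ?_
    have := I.swap _ (hmemκ x)
    rwa [show I.omega (κ x) = ι x from I.omega_omega _] at this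
  have hker : ∀ u : Submodule.torsionBy ℤ (E⁄Qbar).Point (p : ℤ) →+ JZero N,
      (∀ (g : GQ) x, u (g • x) = g • u x) →
      Function.Injective u ∨ u = 0 := by
    intro u hu
    rcases hirr.2 (AddSubgroup.toZModSubmodule p u.ker) (fun g x hx => by
        show u (g • x) = 0
        rw [hu, show u x = 0 from hx]
        exact map_zero (DistribSMul.toAddMonoidHom (JZero N) g)) with h | h
    · refine Or.inl ((injective_iff_map_eq_zero u).mpr fun x hx => ?_)
      have hx' : x ∈ AddSubgroup.toZModSubmodule p u.ker := hx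
      rw [h] at hx'
      exact (Submodule.mem_bot _).mp hx'
    · refine Or.inr (AddMonoidHom.ext fun x => ?_)
      have hx' : x ∈ AddSubgroup.toZModSubmodule p u.ker := h ▸ Submodule.mem_top
      exact hx'
  obtain ⟨e, he, hscal⟩ : ∃ e : ℤ, (e = 1 ∨ e = -1) ∧
      ∀ x : Submodule.torsionBy ℤ (E⁄Qbar).Point (p : ℤ), φ • x = ((e * r : ℤ) : ZMod p) • x := by
    have key : ∀ e : ℤ, e * e = 1 → Function.Injective (ι + e • κ) →
        ∀ x : Submodule.torsionBy ℤ (E⁄Qbar).Point (p : ℤ),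
          φ • x = ((-e * r : ℤ) : ZMod p) • x := by
      intro e he hinj x
      rw [Int.cast_smul_eq_zsmul]
      refine hinj ?_
      rw [map_zsmul]
      show ι (φ • x) + e • κ (φ • x) = (-e * (r : ℤ)) • (ι x + e • κ x)
      rw [hswap, hswap', zsmul_add, smul_smul, zsmul_neg,
        ← natCast_zsmul, ← natCast_zsmul, smul_smul,
        show -e * (r : ℤ) * e = -((r : ℤ) * (e * e)) by ring, he]
      module
    have hequiv' : ∀ e : ℤ, ∀ (g : GQ) x, (ι + e • κ) (g • x) = g • (ι + e • κ) x :=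
      fun e g x => by
        show ι (g • x) + e • κ (g • x) = g • (ι x + e • κ x)
        rw [hequiv, hκequiv]
        exact ((map_add (DistribSMul.toAddMonoidHom (JZero N) g) (ι x) (e • κ x)).trans
          (congrArg _ (map_zsmul (DistribSMul.toAddMonoidHom (JZero N) g) e (κ x)))).symm
    rcases hker _ (hequiv' 1) with h | h
    · exact ⟨-1, Or.inr rfl, fun x => key 1 (one_mul 1) h x⟩
    rcases hker _ (hequiv' (-1)) with h' | h'
    · exact ⟨1, Or.inl rfl, fun x => by simpa using key (-1) (by norm_num) h' x⟩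
    exfalso
    obtain ⟨x, y, hxy⟩ := hirr.1
    refine hxy (hι ?_)
    have hz : ∀ z, ι z = 0 := fun z => by
      have h1 := DFunLike.congr_fun h z
      have h2 := DFunLike.congr_fun h' z
      replace h1 : ι z + κ z = 0 := by
        have h1' : ι z + (1 : ℤ) • κ z = 0 := h1
        rwa [one_smul] at h1'
      replace h2 : ι z + -κ z = 0 := by
        have h2' : ι z + (-1 : ℤ) • κ z = 0 := h2
        rwa [neg_smul, one_smul] at h2'
      have h2x : (2 : ℕ) • ι z = 0 := by
        rw [two_smul]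
        calc ι z + ι z = (ι z + κ z) + (ι z + -κ z) := by abel
          _ = 0 := by rw [h1, h2, add_zero]
      obtain ⟨m, hm⟩ := hpp.odd_of_ne_two hp2
      have := (congrArg (fun n => n • ι z) hm).symm.trans (htor z)
      simp only [add_smul, mul_comm 2 m, mul_smul, h2x, smul_zero, zero_add, one_smul] at this
      exact this
    rw [hz, hz]
  have hV : Module.finrank (ZMod p) (Submodule.torsionBy ℤ (E⁄Qbar).Point (p : ℤ)) = 2 :=
      EC.finrank_torsionBy (K := Qbar) E p
    (Nat.cast_ne_zero.mpr hpp.ne_zero)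
  have hend : galoisRepModuleEnd (K := Qbar) ℚ E p φ =
      ((e * r : ℤ) : ZMod p) • (LinearMap.id : Submodule.torsionBy ℤ (E⁄Qbar).Point (p : ℤ)
        →ₗ[ZMod p] Submodule.torsionBy ℤ (E⁄Qbar).Point (p : ℤ)) :=
    LinearMap.ext fun x => hscal x
  have hdet := EC.det_frobenius p r E hr hrp hA hφ
  rw [hend, LinearMap.det_smul, LinearMap.det_id, mul_one, hV] at hdet
  have hr0 : (r : ZMod p) ≠ 0 := by
    rw [Ne, ZMod.natCast_eq_zero_iff]
    exact fun hd => hrp ((Nat.prime_dvd_prime_iff_eq hpp hr).mp hd).symm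
  have hr1 : (r : ZMod p) = 1 := by
    rcases he with rfl | rfl <;> push_cast at hdet <;> ring_nf at hdet <;>
      exact mul_left_cancel₀ hr0 (by linear_combination hdet)
  refine ⟨hr1, (e : ZMod p), ?_, fun v => ?_⟩
  · rcases he with rfl | rfl <;> simp
  · rw [hend]
    simp [hr1]

end Fermat.Agent.LevelLowering.MazurPrinciple
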