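import Mathlib.FieldTheory.Galois.Profinite
import Fermat.Agent.TW.Tame

/-!
# A tame generator of inertia

One inertia element at `r` generates the image of inertia in every finite quotient in which that
image is a `p`-group.
-/

noncomputable section

namespace Fermat.Agent.LevelLowering.MazurPrinciple

local notation "Qbar" => AlgebraicClosure ℚ
local notation "GQ" => (AlgebraicClosure ℚ ≃ₐ[ℚ] AlgebraicClosure ℚ)

/-- `σ` generates the image of inertia in every finite quotient where that is a `p`-group. -/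
def IsTameGenerator (p : ℕ) (A : ValuationSubring Qbar) (σ : GQ) : Prop :=
  σ ∈ A.inertiaSubgroupIn ℚ ∧ ∀ (H : Type) [Group H] (π : GQ →* H)
    (L : IntermediateField ℚ Qbar), FiniteDimensional ℚ L →
    (∀ s : GQ, (∀ x ∈ L, s x = x) → π s = 1) →
    (∀ τ ∈ A.inertiaSubgroupIn ℚ, ∃ k : ℕ, π τ ^ p ^ k = 1) →
    ∀ τ ∈ A.inertiaSubgroupIn ℚ, π τ ∈ Subgroup.zpowers (π σ)

/-- Inertia subgroups are closed. -/
theorem isClosed_inertia (A : ValuationSubring Qbar) :
    IsClosed (A.inertiaSubgroupIn ℚ : Set GQ) := by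
  rw [← isOpen_compl_iff, isOpen_iff_mem_nhds]
  intro σ hσ
  -- a witness that `σ` is not in inertia depends only on its restriction to a finite extension
  obtain ⟨x, hx⟩ : ∃ x : Qbar, ∀ τ : GQ, τ x = σ x → τ ∉ A.inertiaSubgroupIn ℚ := by
    by_contra hne
    push Not at hne
    refine hσ (Gal.mem_inertia_iff.mpr ⟨Gal.mem_decomposition_iff.mpr fun x => ?_, fun x hx => ?_⟩)
    · obtain ⟨τ, hτx, hτ⟩ := hne x
      rw [← hτx]
      exact Gal.mem_decomposition_iff.mp (Gal.mem_inertia_iff.mp hτ).1 x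
    · obtain ⟨τ, hτx, hτ⟩ := hne x
      rw [← hτx]
      exact (Gal.mem_inertia_iff.mp hτ).2 x hx
  have : FiniteDimensional ℚ (IntermediateField.adjoin ℚ ({x} : Set Qbar)) :=
    IntermediateField.adjoin.finiteDimensional (Algebra.IsIntegral.isIntegral x)
  refine Filter.mem_of_superset (IsOpen.mem_nhds
    ((IntermediateField.fixingSubgroup_isOpen (IntermediateField.adjoin ℚ ({x} : Set Qbar))).smul σ)
    ⟨1, one_mem _, mul_one σ⟩) ?_
  rintro _ ⟨s, hs, rfl⟩
  refine hx _ ?_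
  show σ (s x) = σ x
  rw [(IntermediateField.mem_fixingSubgroup_iff _ s).mp hs x
    (IntermediateField.mem_adjoin_simple_self ℚ x)]

/-- **Existence of a tame generator.** -/
theorem exists_isTameGenerator {r p : ℕ} (hr : r.Prime) (hp : p.Prime) (hpr : p ≠ r)
    {A : ValuationSubring Qbar} (hA : A.LiesOverPrime r) :
    ∃ σ, IsTameGenerator p A σ := by
  classical
  let I := A.inertiaSubgroupIn ℚ
  let Idx := {L : IntermediateField ℚ Qbar // FiniteDimensional ℚ L}
  let C : Idx → Set GQ := fun L => {σ | σ ∈ I ∧ ∀ (H : Type) [Group H] (π : GQ →* H),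
    (∀ s : GQ, (∀ x ∈ L.1, s x = x) → π s = 1) → (∀ τ ∈ I, ∃ k : ℕ, π τ ^ p ^ k = 1) →
      ∀ τ ∈ I, π τ ∈ Subgroup.zpowers (π σ)}
  have hmono : ∀ L L' : Idx, L.1 ≤ L'.1 → C L' ⊆ C L := fun L L' hle σ hσ =>
    ⟨hσ.1, fun H _ π hπ => hσ.2 H π fun s hs => hπ s fun x hx => hs x (hle hx)⟩
  -- nonempty
  have hne : ∀ L : Idx, (C L).Nonempty := by
    rintro ⟨L, hL⟩
    let N := IntermediateField.normalClosure ℚ L Qbar
    have : FiniteDimensional ℚ N := normalClosure.is_finiteDimensional ℚ L Qbar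
    have : Normal ℚ N := normalClosure.normal ℚ L Qbar
    let res : GQ →* (N ≃ₐ[ℚ] N) := AlgEquiv.restrictNormalHom N
    let Ks := {K : Subgroup (N ≃ₐ[ℚ] N) // K.Normal ∧ ∀ τ ∈ I, ∃ k : ℕ, res τ ^ p ^ k ∈ K}
    have : ∀ K : Ks, K.1.Normal := fun K => K.2.1
    let π₀ : GQ →* ∀ K : Ks, (N ≃ₐ[ℚ] N) ⧸ K.1 :=
      MonoidHom.pi fun K => (QuotientGroup.mk' K.1).comp res
    have hres : ∀ s : GQ, (∀ x ∈ N, s x = x) → res s = 1 := fun s hs =>
      AlgEquiv.ext fun x => Subtype.ext ((AlgEquiv.restrictNormal_commutes s N x).trans (hs x x.2))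
    obtain ⟨-, t, ht, hgen⟩ := TW.exists_inertia_generator_frobenius hr hp hpr hA π₀ N
      (fun s hs => by
        funext K
        show QuotientGroup.mk' K.1 (res s) = 1
        rw [hres s hs, map_one])
      (fun τ hτ => by
        have := Fintype.ofFinite Ks
        choose k hk using fun K : Ks => K.2.2 τ hτ
        refine ⟨∑ K, k K, funext fun K => ?_⟩
        obtain ⟨j, hj⟩ := Nat.exists_eq_add_of_le
          (Finset.single_le_sum (f := k) (fun _ _ => Nat.zero_le _) (Finset.mem_univ K))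
        show (QuotientGroup.mk' K.1 (res τ)) ^ p ^ _ = 1
        rw [hj, pow_add, pow_mul, ← map_pow, QuotientGroup.mk'_apply,
          (QuotientGroup.eq_one_iff _).mpr (hk K), one_pow])
    refine ⟨t, ht, fun H _ π hπ hpg τ hτ => ?_⟩
    let K : Subgroup (N ≃ₐ[ℚ] N) := Subgroup.map res π.ker
    have hsurj : Function.Surjective res := AlgEquiv.restrictNormalHom_surjective Qbar
    have hK : K.Normal := (MonoidHom.normal_ker π).map res hsurj
    have hker : ∀ g, res g ∈ K → π g = 1 := by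
      rintro g ⟨g', hg', e⟩
      have h1 : π (g'⁻¹ * g) = 1 := hπ _ fun x hx => by
        have h2 : res (g'⁻¹ * g) = 1 := by rw [map_mul, map_inv, e, inv_mul_cancel]
        exact (AlgEquiv.restrictNormal_commutes (g'⁻¹ * g) N
          ⟨x, IntermediateField.le_normalClosure L hx⟩).symm.trans
          (congrArg (fun σ : N ≃ₐ[ℚ] N =>
            ((σ ⟨x, IntermediateField.le_normalClosure L hx⟩ : N) : Qbar)) h2)
      rwa [map_mul, map_inv, MonoidHom.mem_ker.mp hg', inv_one, one_mul] at h1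
    obtain ⟨j, hj⟩ := hgen τ hτ
    let K₀ : Ks := ⟨K, hK, fun τ' hτ' => (hpg τ' hτ').imp fun k hk => ⟨τ' ^ p ^ k,
      MonoidHom.mem_ker.mpr (by rw [map_pow, hk]), map_pow res τ' _⟩⟩
    refine ⟨j, ?_⟩
    have h4 : π₀ (t ^ j) K₀ = π₀ τ K₀ := congrFun ((map_zpow π₀ t j).trans hj) K₀
    have h5 : res ((t ^ j)⁻¹ * τ) ∈ K := by
      rw [map_mul, map_inv]
      exact QuotientGroup.eq.mp h4
    have h6 := hker _ h5
    rw [map_mul, map_inv, inv_mul_eq_one, map_zpow] at h6
    exact h6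
  -- closed
  have hclosed : ∀ L : Idx, IsClosed (C L) := by
    rintro ⟨L, hL⟩
    have : C ⟨L, hL⟩ = (I : Set GQ) ∩ {σ | ∀ (H : Type) [Group H] (π : GQ →* H),
        (∀ s : GQ, (∀ x ∈ L, s x = x) → π s = 1) → (∀ τ ∈ I, ∃ k : ℕ, π τ ^ p ^ k = 1) →
        ∀ τ ∈ I, π τ ∈ Subgroup.zpowers (π σ)} := rfl
    rw [this]
    refine (isClosed_inertia A).inter ?_
    rw [← isOpen_compl_iff, isOpen_iff_mem_nhds]
    intro σ hσ
    refine Filter.mem_of_superset (IsOpen.mem_nhds
      ((IntermediateField.fixingSubgroup_isOpen L).smul σ) ⟨1, one_mem _, mul_one σ⟩) ?_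
    rintro _ ⟨s, hs, rfl⟩ hmem
    refine hσ fun H _ π hπ hpg τ hτ => ?_
    have h := hmem H π hπ hpg τ hτ
    change π τ ∈ Subgroup.zpowers (π (σ * s)) at h
    rw [map_mul,
      hπ s ((IntermediateField.mem_fixingSubgroup_iff L s).mp hs), mul_one] at h
    exact h
  -- compactness
  obtain ⟨σ, hσ⟩ := IsCompact.nonempty_iInter_of_directed_nonempty_isCompact_isClosed
    (hι := ⟨⟨⊥, inferInstance⟩⟩) C
    (fun L L' => by
      have := L.2
      have := L'.2
      exact ⟨⟨L.1 ⊔ L'.1, inferInstance⟩, hmono _ _ le_sup_left, hmono _ _ le_sup_right⟩)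
    hne (fun L => (hclosed L).isCompact) hclosed
  rw [Set.mem_iInter] at hσ
  exact ⟨σ, (hσ ⟨⊥, inferInstance⟩).1, fun H _ π L hL => (hσ ⟨L, hL⟩).2 H π⟩

end Fermat.Agent.LevelLowering.MazurPrinciple
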