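import Mathlib.NumberTheory.Padics.RingHoms
import Fermat.Agent.EC.TorsionGalois
import Fermat.Agent.LevelLowering.MazurPrinciple.Mazur
import Fermat.Agent.LevelLowering.Scalar.Level

/-!
# The residual representation of a curve over `ℤ_p` and its scalar primes

`E[p]` over the residue field of `ℤ_p` with a basis; primes where Frobenius is a scalar sign and
`r ≡ 1 (mod p)` are scalar primes for it.
-/

noncomputable section

namespace Fermat.Agent.LevelLowering.MazurPrinciple

open Module IsLocalRing WeierstrassCurve Fermat.Agent.Gal Fermat.Agent.PT Fermat.Agent.TW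
open scoped WeierstrassCurve.Affine

local notation "Qbar" => AlgebraicClosure ℚ

variable (p : ℕ) [Fact p.Prime]

/-- `ZMod p` as the residue field of `ℤ_p`. -/
def toPadicRes : ZMod p →+* ResidueField ℤ_[p] :=
  (PadicInt.residueField (p := p)).symm.toRingHom

instance charP_padicRes : CharP (ResidueField ℤ_[p]) p :=
  charP_of_injective_ringHom (toPadicRes p).injective p

theorem finite_padicRes : Finite (ResidueField ℤ_[p]) :=
  Finite.of_equiv _ (PadicInt.residueField (p := p)).symm.toEquiv

variable (E : WeierstrassCurve ℚ) [E.IsElliptic]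

/-- `E[p]` over the residue field of `ℤ_p`. -/
def curveRes : ResidualGaloisRep (ResidueField ℤ_[p]) :=
  (EC.residualRep E p).baseChangeAlong (toPadicRes p)

/-- A basis of `E[p]`. -/
def curveBasis₀ : Basis (Fin 2) (ZMod p) (EC.residualRep E p).V :=
  basisTwo (EC.residualRep E p).finrank_eq

/-- The induced basis over the residue field of `ℤ_p`. -/
def curveBasis : Basis (Fin 2) (ResidueField ℤ_[p]) (curveRes p E).V :=
  (exists_basis_baseChangeAlong (toPadicRes p) (EC.residualRep E p) (curveBasis₀ p E)).choose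

theorem rbar_curveBasis (g : AG) : rbar (curveBasis p E) g =
    (matrixRep (curveBasis₀ p E) (EC.residualRep E p).ρ g).map (toPadicRes p) :=
  (exists_basis_baseChangeAlong (toPadicRes p) (EC.residualRep E p) (curveBasis₀ p E)).choose_spec g

theorem rbar_eq_smul_one {g : AG} {c : ZMod p}
    (h : ∀ x : Submodule.torsionBy ℤ (E⁄Qbar).Point (p : ℤ),
      Affine.Point.galoisRepModuleEnd (K := Qbar) ℚ E p g x = c • x) :
    rbar (curveBasis p E) g = toPadicRes p c • 1 := by
  have h1 : matrixRep (curveBasis₀ p E) (EC.residualRep E p).ρ g = c • 1 := by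
    have : (EC.residualRep E p).ρ g = c • 1 := LinearMap.ext fun x => h x
    show LinearMap.toMatrixAlgEquiv _ _ = _
    rw [this, map_smul, map_one]
  rw [rbar_curveBasis, h1]
  ext i j
  by_cases hij : i = j <;> simp [hij]

/-- **The scalar primes of a curve.** -/
theorem exists_scalarPrimes (hp2 : p ≠ 2) {m : ℕ} (r : Fin m → ℕ) (hr : ∀ i, (r i).Prime)
    (hrp : ∀ i, r i ≠ p) (hr1 : ∀ i, (r i : ZMod p) = 1)
    (hunr : ∀ i, ∀ A : ValuationSubring Qbar, A.LiesOverPrime (r i) →
      ∀ τ ∈ A.inertiaSubgroupIn ℚ, ∀ x : Submodule.torsionBy ℤ (E⁄Qbar).Point (p : ℤ), τ • x = x)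
    (hscal : ∀ i, ∀ A : ValuationSubring Qbar, A.LiesOverPrime (r i) → ∀ φ : AG,
      A.IsFrobeniusAt φ (r i) → ∃ c : ZMod p, (c = 1 ∨ c = -1) ∧
        ∀ x, Affine.Point.galoisRepModuleEnd (K := Qbar) ℚ E p φ x = c • x) :
    ∃ P : Scalar.ScalarPrimes p (curveRes p E) (curveBasis p E) m, ∀ i, P.r i = r i ∧
      ∃ _ : Fact (P.r i).Prime, P.A i = padicPlace (P.r i) := by
  have hp : p.Prime := Fact.out
  let A : Fin m → ValuationSubring Qbar := fun i =>
    haveI : Fact (r i).Prime := ⟨hr i⟩
    padicPlace (r i)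
  have hA : ∀ i, (A i).LiesOverPrime (r i) := fun i =>
    haveI : Fact (r i).Prime := ⟨hr i⟩
    padicPlace_liesOverPrime
  choose φ hφ using fun i => Gal.exists_isFrobeniusAt (A := A i) (hr i) (hA i)
  choose σ hσ using fun i => exists_isTameGenerator (hr i) hp (hrp i).symm (hA i)
  choose c hc hscal using fun i => hscal i (A i) (hA i) (φ i) (hφ i)
  let ε : Fin m → ℤ_[p] := fun i => if c i = 1 then 1 else -1
  refine ⟨{
    r := r
    A := A
    φ := φ
    σ := σ
    ε := ε
    prime := hr
    two := fun i h => ?_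
    ne_p := hrp
    one_mod := fun i => ?_
    lies := hA
    frob := hφ
    tame := hσ
    inertia := fun i τ hτ => ?_
    sign := fun i => by simp only [ε]; split_ifs <;> simp
    scalar := fun i => ?_ }, fun i => ⟨rfl, ⟨hr i⟩, rfl⟩⟩
  · have h1 := hr1 i
    rw [h] at h1
    have h0 : (((1 : ℕ)) : ZMod p) = 0 := by linear_combination h1
    rw [ZMod.natCast_eq_zero_iff, Nat.dvd_one] at h0
    exact hp.ne_one h0
  · rw [← residue_eq_zero_iff, map_sub, map_one, map_natCast, ← map_natCast (toPadicRes p), hr1,
      map_one, sub_self]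
  · rw [rbar_eq_smul_one p E (c := 1) fun x => (hunr i (A i) (hA i) τ hτ x).trans
      (one_smul _ x).symm,
      map_one, one_smul]
  · rw [rbar_eq_smul_one p E (hscal i)]
    congr 1
    simp only [ε]
    rcases hc i with h | h
    · simp [h]
    · have hne : c i ≠ 1 := by
        rw [h]
        intro h'
        have h2 : (((2 : ℕ)) : ZMod p) = 0 := by push_cast; linear_combination -h'
        rw [ZMod.natCast_eq_zero_iff] at h2
        exact hp2 ((Nat.prime_dvd_prime_iff_eq hp Nat.prime_two).1 h2)
      rw [if_neg hne, h]; simp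

end Fermat.Agent.LevelLowering.MazurPrinciple
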