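import Fermat.Prelude.Def_FLTPrelim_ModularRep
import Fermat.Prelude.Def_FreyPackage_IsConductorLevel
import Fermat.Agent.LevelLowering.MazurPrinciple.Local
import Fermat.Agent.LevelLowering.MazurPrinciple.TameGen

/-!
# The geometric input of level lowering

`HasToricInputs`: the toric inputs at a prime exactly dividing a minimal level of `ρ̄`, in the form
the lowering argument consumes.
-/

noncomputable section

namespace Fermat.Agent.LevelLowering.MazurPrinciple

open Attach WeierstrassCurve WeierstrassCurve.Affine.Point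
open scoped WeierstrassCurve.Affine

local notation "Qbar" => AlgebraicClosure ℚ
local notation "GQ" => (AlgebraicClosure ℚ ≃ₐ[ℚ] AlgebraicClosure ℚ)

/-- **The toric inputs of Mazur's principle.** At a prime `r ≠ 2, p` exactly dividing a squarefree
level `M` prime to `p`, if `ρ̄` is modular of level `M` but not of level `M / r`, the toric inputs
hold for every Frobenius and every tame generator. -/
def HasToricInputs (P : FreyPackage) [Fact P.p.Prime] : Prop :=
  ∀ (M r : ℕ) [NeZero M], P.IsConductorLevel M → ¬ P.p ∣ M →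
    GaloisRepIsIrreducible (K := Qbar) ℚ P.freyCurve P.p →
    ∀ (Ins : JacobianInputs M P.p), r.Prime → r ≠ 2 → r ≠ P.p → r ∣ M →
      ¬ P.ModularRepOfLevel (M / r) →
    ∀ (W : WeierstrassCurve ℤ), W.IsIntegralModelOf P.freyCurve →
    ∀ (S : Finset ℕ) (hNS : ∀ q, q.Prime → q ∣ M → q ∈ (↑S : Set ℕ)),
    ∀ (θ : CuspForm.heckeAlgebra M 2 (↑S : Set ℕ) →+* ZMod P.p),
      (∀ (ℓ : ℕ) (hℓ : ℓ.Prime) (hℓM : ¬ ℓ ∣ M) (hℓS : ℓ ∉ (↑S : Set ℕ)),
        θ (CuspForm.heckeAlgebra.T hℓ hℓM hℓS) = (W.apOfModel ℓ : ZMod P.p)) →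
    ∀ (A : ValuationSubring Qbar), A.LiesOverPrime r → ∀ φ σ : GQ, A.IsFrobeniusAt φ r →
      IsTameGenerator P.p A σ → Nonempty (LocalToric Ins.model hNS θ r φ σ)

end Fermat.Agent.LevelLowering.MazurPrinciple
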